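import Fermat.Agent.Jac.Coh

/-! # S25 chart: `H¹(O)` commutes with base change -/

set_option autoImplicit false

universe u

open TensorProduct

namespace FLTAgent.Jac.ChartAux

open LineData

variable {k : Type u} [Field k] (M : Model k) (A : Type u) [CommRing A] [Algebra k A]

/-- The span of both coordinate rings on the overlap. -/
noncomputable def ovDiff : (M.Rp × M.Rm) →ₗ[k] M.Rpm :=
  M.ip.toLinearMap ∘ₗ LinearMap.fst k M.Rp M.Rm - M.im.toLinearMap ∘ₗ LinearMap.snd k M.Rp M.Rm

theorem unitH1Equiv_aux :
    LinearMap.ker ((LinearMap.range (ovDiff M)).mkQ.baseChange A) =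
      LinearMap.range (LineData.unit M A).diff := by
  have hex : Function.Exact ((ovDiff M).lTensor A) ((LinearMap.range (ovDiff M)).mkQ.lTensor A) :=
    lTensor_exact A (LinearMap.exact_iff.2 (Submodule.ker_mkQ _)) (Submodule.mkQ_surjective _)
  ext z
  rw [LinearMap.mem_ker, show (LinearMap.range (ovDiff M)).mkQ.baseChange A z =
    (LinearMap.range (ovDiff M)).mkQ.lTensor A z from rfl]
  constructor
  · intro hz
    obtain ⟨w, rfl⟩ := (hex z).1 hz
    clear hz
    induction w using TensorProduct.induction_on with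
    | zero => simp
    | add u v hu hv => rw [map_add]; exact add_mem hu hv
    | tmul a v =>
      refine ⟨(a ⊗ₜ v.1, a ⊗ₜ v.2), ?_⟩
      show M.ipA A (a ⊗ₜ v.1) - M.imA A (a ⊗ₜ v.2) = _
      simp [ovDiff, Model.ipA, Model.imA]
  · rintro ⟨⟨p, m⟩, rfl⟩
    have hp : ∀ p : M.Ap A, (LinearMap.range (ovDiff M)).mkQ.lTensor A (M.ipA A p) = 0 := by
      intro p
      induction p using TensorProduct.induction_on with
      | zero => simp
      | add u v hu hv => simp only [map_add, hu, hv, add_zero]
      | tmul a r =>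
        have : (LinearMap.range (ovDiff M)).mkQ (M.ip r) = 0 :=
          (Submodule.Quotient.mk_eq_zero _).2 ⟨(r, 0), by simp [ovDiff]⟩
        simp only [Submodule.mkQ_apply] at this
        simp [Model.ipA, this]
    have hm : ∀ m : M.Am A, (LinearMap.range (ovDiff M)).mkQ.lTensor A (M.imA A m) = 0 := by
      intro m
      induction m using TensorProduct.induction_on with
      | zero => simp
      | add u v hu hv => simp only [map_add, hu, hv, add_zero]
      | tmul a r =>
        have : (LinearMap.range (ovDiff M)).mkQ (M.im r) = 0 :=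
          (Submodule.Quotient.mk_eq_zero _).2 ⟨(0, -r), by simp [ovDiff]⟩
        simp only [Submodule.mkQ_apply] at this
        simp [Model.imA, this]
    show (LinearMap.range (ovDiff M)).mkQ.lTensor A (M.ipA A p - M.imA A m) = 0
    rw [map_sub, hp, hm, sub_zero]

/-- `H¹(O_A) = A ⊗ H¹(O)`. -/
noncomputable def unitH1Equiv :
    (LineData.unit M A).H1 ≃ₗ[A] A ⊗[k] (M.Rpm ⧸ LinearMap.range (ovDiff M)) :=
  Submodule.quotEquivOfEq _ _ (unitH1Equiv_aux M A).symm ≪≫ₗ
    LinearMap.quotKerEquivOfSurjective ((LinearMap.range (ovDiff M)).mkQ.baseChange A)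
      (LinearMap.lTensor_surjective A (Submodule.mkQ_surjective _))

theorem finite_ovQuot : Module.Finite k (M.Rpm ⧸ LinearMap.range (ovDiff M)) :=
  have := finite_H1 (LineData.unit M k)
  Module.Finite.equiv (unitH1Equiv M k ≪≫ₗ TensorProduct.lid k _)

theorem finrank_ovQuot : Module.finrank k (M.Rpm ⧸ LinearMap.range (ovDiff M)) = M.genus :=
  (unitH1Equiv M k ≪≫ₗ TensorProduct.lid k _).finrank_eq.symm

theorem unit_H1_free : Module.Free A (LineData.unit M A).H1 :=
  Module.Free.of_equiv (unitH1Equiv M A).symm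

theorem unit_H1_finite : Module.Finite A (LineData.unit M A).H1 :=
  have := finite_ovQuot M
  Module.Finite.equiv (unitH1Equiv M A).symm

theorem unit_H1_rank (p : PrimeSpectrum A) :
    Module.rankAtStalk (R := A) (LineData.unit M A).H1 p = M.genus := by
  have : Nontrivial A := p.nontrivial
  rw [Module.rankAtStalk_eq_of_equiv (unitH1Equiv M A), Module.rankAtStalk_eq_finrank_of_free,
    Pi.natCast_apply, Module.finrank_baseChange, finrank_ovQuot, Nat.cast_id]

end FLTAgent.Jac.ChartAux
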