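import Fermat.Agent.Jac.Defs

/-! # S25 chart: the coordinate `1/x` on the chart at infinity -/

set_option autoImplicit false

universe u

open TensorProduct Polynomial

namespace FLTAgent.Jac.ChartAux

variable {k : Type u} [Field k] (M : Model k) (A : Type u) [CommRing A] [Algebra k A]

/-- `1/x` on `U₋ × Spec A`. -/
noncomputable def yA : M.Am A := (1 : A) ⊗ₜ[k] M.y

/-- `x` on `U₊ × Spec A`. -/
noncomputable def xA : M.Ap A := (1 : A) ⊗ₜ[k] M.x

theorem imA_yA : M.imA A (yA M A) = ↑(M.xU A)⁻¹ := by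
  simp [yA, Model.imA, Model.xU]

theorem ipA_xA : M.ipA A (xA M A) = ↑(M.xU A) := by
  simp [xA, Model.ipA, Model.xU]

theorem imA_injective : Function.Injective (M.imA A) :=
  Module.Flat.lTensor_preserves_injective_linearMap M.im.toLinearMap M.im_inj

theorem ipA_injective : Function.Injective (M.ipA A) :=
  Module.Flat.lTensor_preserves_injective_linearMap M.ip.toLinearMap M.ip_inj

theorem exists_imA_eq (r : M.Apm A) :
    ∃ (i : ℕ) (a : M.Am A), (↑(M.xU A)⁻¹ : M.Apm A) ^ i * r = M.imA A a := by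
  obtain ⟨i, m, hm⟩ := LineData.exists_ipA_eq (M := M.swap) r
  exact ⟨i, m, hm⟩

variable {A} in
theorem yA_mul_cancel {a b : M.Am A} (h : yA M A * a = yA M A * b) : a = b := by
  apply imA_injective M A
  have h' := congrArg (M.imA A) h
  rw [map_mul, map_mul, imA_yA] at h'
  exact (M.xU A)⁻¹.isUnit.mul_left_cancel h'

variable {A} in
theorem eq_zero_of_forall_dvd_pow {a : M.Am A} (h : ∀ n : ℕ, yA M A ^ n ∣ a) : a = 0 := by
  classical
  obtain ⟨b, hb⟩ := M.basis_m
  let E : (Fin M.d → k[X]) →ₗ[k] M.Rm :=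
    ∑ i, ((LinearMap.mulRight k (b i)).comp (aeval (R := k) M.y).toLinearMap).comp
      (LinearMap.proj i)
  have hE : ∀ c : Fin M.d → k[X], E c = ∑ i, aeval M.y (c i) * b i := fun c => by
    simp [E, LinearMap.sum_apply]
  have hbij : Function.Bijective E := by
    rw [show (⇑E : _ → _) = fun c => ∑ i, aeval M.y (c i) * b i from funext hE]
    exact hb
  let eE := LinearEquiv.ofBijective E hbij
  let β := (Pi.basis fun _ : Fin M.d => Polynomial.basisMonomials k).map eE
  let β' := Algebra.TensorProduct.basis A β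
  refine β'.ext_elem fun ij => ?_
  obtain ⟨c, rfl⟩ := h (ij.2 + 1)
  rw [map_zero, Finsupp.zero_apply]
  clear h
  induction c using TensorProduct.induction_on with
  | zero => simp
  | add u v hu hv => rw [mul_add, map_add, Finsupp.add_apply, hu, hv, add_zero]
  | tmul a r =>
    obtain ⟨c, rfl⟩ := hbij.2 r
    have h2 : M.y ^ (ij.2 + 1) * E c = E fun i => X ^ (ij.2 + 1) * c i := by
      simp [hE, Finset.mul_sum, mul_assoc]
    rw [yA, Algebra.TensorProduct.tmul_pow, Algebra.TensorProduct.tmul_mul_tmul, one_pow, one_mul,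
      h2, Algebra.TensorProduct.basis_repr_tmul, Finsupp.smul_apply, Finsupp.mapRange_apply]
    simp only [β, Module.Basis.map_repr, LinearEquiv.trans_apply]
    have h3 : eE.symm (E fun i => X ^ (ij.2 + 1) * c i) = fun i => X ^ (ij.2 + 1) * c i :=
      eE.symm_apply_apply _
    rw [h3, Pi.basis_repr]
    have h4 : ∀ (p : k[X]) (j : ℕ), (Polynomial.basisMonomials k).repr p j = p.coeff j :=
      fun _ _ => rfl
    rw [h4, Polynomial.coeff_X_pow_mul', if_neg (Nat.not_succ_le_self _), map_zero, smul_zero]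

theorem exists_pow_prod_le [IsAlgClosed k] :
    ∃ (S : Finset (M.Rm →ₐ[k] k)) (N : ℕ), (∀ q ∈ S, q M.y = 0) ∧
      (S.prod fun q => RingHom.ker q) ^ N ≤ Ideal.span {M.y} := by
  classical
  obtain ⟨b, hb⟩ := M.basis_m
  set I : Ideal M.Rm := Ideal.span {M.y}
  have hfin : Module.Finite k (M.Rm ⧸ I) := by
    refine Module.Finite.of_surjective
      (Fintype.linearCombination k fun i => Ideal.Quotient.mk I (b i)) fun z => ?_
    obtain ⟨r, rfl⟩ := Ideal.Quotient.mk_surjective z
    obtain ⟨c, rfl⟩ := hb.2 r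
    refine ⟨fun i => (c i).coeff 0, ?_⟩
    rw [Fintype.linearCombination_apply, map_sum]
    refine Finset.sum_congr rfl fun i _ => ?_
    have hy : Ideal.Quotient.mkₐ k I M.y = 0 :=
      Ideal.Quotient.eq_zero_iff_mem.2 (Ideal.mem_span_singleton_self _)
    rw [map_mul, ← Ideal.Quotient.mkₐ_eq_mk k I, ← Polynomial.aeval_algHom_apply, hy,
      ← Polynomial.coeff_zero_eq_aeval_zero', Algebra.smul_def]
  have : IsArtinianRing (M.Rm ⧸ I) := IsArtinianRing.of_finite k _
  let S : Finset (M.Rm →ₐ[k] k) :=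
    (Set.toFinite (Set.univ : Set (M.Rm ⧸ I →ₐ[k] k))).toFinset.image
      fun g => g.comp (Ideal.Quotient.mkₐ k I)
  have hS : ∀ g : M.Rm ⧸ I →ₐ[k] k, g.comp (Ideal.Quotient.mkₐ k I) ∈ S := fun g =>
    Finset.mem_image.2 ⟨g, by simp, rfl⟩
  obtain ⟨N, hN⟩ := IsArtinianRing.isNilpotent_nilradical (R := M.Rm ⧸ I)
  refine ⟨S, N, fun q hq => ?_, ?_⟩
  · obtain ⟨g, -, rfl⟩ := Finset.mem_image.1 hq
    rw [AlgHom.comp_apply, Ideal.Quotient.mkₐ_eq_mk,
      Ideal.Quotient.eq_zero_iff_mem.2 (Ideal.mem_span_singleton_self _), map_zero]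
  · have hle : (S.prod fun q => RingHom.ker q).map (Ideal.Quotient.mk I) ≤
        nilradical (M.Rm ⧸ I) := by
      intro z hz
      rw [nilradical_eq_sInf, Ideal.mem_sInf]
      intro P hP
      have : P.IsPrime := hP
      let π := Ideal.Quotient.mkₐ k P
      have hb : Function.Bijective (algebraMap k ((M.Rm ⧸ I) ⧸ P)) :=
        IsAlgClosed.algebraMap_bijective_of_isIntegral
      let g : M.Rm ⧸ I →ₐ[k] k := ((AlgEquiv.ofBijective (Algebra.ofId k _) hb).symm :
        ((M.Rm ⧸ I) ⧸ P) →ₐ[k] k).comp π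
      have hker : ∀ u, g u = 0 → u ∈ P := fun u hu => by
        have : π u = 0 := (AlgEquiv.ofBijective (Algebra.ofId k _) hb).symm.injective
          (by rw [map_zero]; exact hu)
        exact Ideal.Quotient.eq_zero_iff_mem.1 this
      revert z
      rw [← SetLike.le_def, Ideal.map_le_iff_le_comap]
      exact (Ideal.prod_le_inf.trans (Finset.inf_le (hS g))).trans fun r hr => hker _ hr
    have h0 : ((S.prod fun q => RingHom.ker q) ^ N).map (Ideal.Quotient.mk I) = ⊥ := by
      rw [Ideal.map_pow]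
      exact le_bot_iff.1 ((Ideal.pow_right_mono hle N).trans (le_of_eq hN))
    rwa [Ideal.map_eq_bot_iff_le_ker, Ideal.mk_ker] at h0

end FLTAgent.Jac.ChartAux
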