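import Mathlib

/-! # S25 chart: invertible modules, sections and their quotients -/

set_option autoImplicit false

open TensorProduct

namespace FLTAgent.Jac.ChartAux

section

variable {R : Type*} [CommRing R] {P : Type*} [AddCommGroup P] [Module R P] [Module.Invertible R P]

theorem dual_smul_comm (φ : Module.Dual R P) (m n : P) : φ n • m = φ m • n := by
  have h : n ⊗ₜ[R] m = m ⊗ₜ n := Module.Invertible.tmul_comm
  have h' := congrArg (TensorProduct.lift ((LinearMap.lsmul R P).comp φ)) h
  simpa using h'

variable (P) in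
theorem eq_top_of_forall_dual_mem (I : Ideal R)
    (h : ∀ (φ : Module.Dual R P) (m : P), φ m ∈ I) : I = ⊤ := by
  have key : ∀ t : Module.Dual R P ⊗[R] P, contractLeft R P t ∈ I := fun t => by
    induction t using TensorProduct.induction_on with
    | zero => simp
    | tmul φ m => simpa using h φ m
    | add x y hx hy => rw [map_add]; exact add_mem hx hy
  obtain ⟨t, ht⟩ := (Module.Invertible.bijective (R := R) (M := P)).2 1
  exact (Ideal.eq_top_iff_one I).2 (ht ▸ key t)

/-- The ideal of coefficients of a section. -/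
def coeffIdeal (s : P) : Ideal R := LinearMap.range (Module.Dual.eval R P s)

omit [Module.Invertible R P] in
theorem mem_coeffIdeal {s : P} {r : R} : r ∈ coeffIdeal s ↔ ∃ φ : Module.Dual R P, φ s = r :=
  Iff.rfl

theorem coeffIdeal_smul_top (s : P) :
    coeffIdeal (R := R) s • (⊤ : Submodule R P) = Submodule.span R {s} := by
  apply le_antisymm
  · rw [Submodule.smul_le]
    rintro _ ⟨φ, rfl⟩ m -
    exact Submodule.mem_span_singleton.2 ⟨φ m, (dual_smul_comm φ m s).symm⟩
  · rw [Submodule.span_singleton_le_iff_mem]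
    set D : Ideal R := (coeffIdeal (R := R) s • (⊤ : Submodule R P)).comap
      (LinearMap.toSpanSingleton R P s)
    have hD : D = ⊤ := eq_top_of_forall_dual_mem P D fun φ m => by
      show φ m • s ∈ coeffIdeal (R := R) s • (⊤ : Submodule R P)
      rw [← dual_smul_comm φ m s]
      exact Submodule.smul_mem_smul ⟨φ, rfl⟩ Submodule.mem_top
    have h1 : (1 : R) ∈ D := hD ▸ Submodule.mem_top
    simpa [D] using h1

theorem le_of_smul_top_le {I I' : Ideal R}
    (h : I • (⊤ : Submodule R P) ≤ I' • (⊤ : Submodule R P)) : I ≤ I' := by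
  intro r hr
  have hD : I'.colon ({r} : Set R) = ⊤ := eq_top_of_forall_dual_mem P _ fun φ m => by
    rw [Submodule.mem_colon_singleton, smul_eq_mul, mul_comm, ← smul_eq_mul, ← map_smul]
    have hle : Submodule.map φ (I' • (⊤ : Submodule R P)) ≤ I' := by
      rw [Submodule.map_smul'']
      exact Submodule.smul_le.2 fun a ha b _ => I'.mul_mem_right b ha
    exact hle ⟨_, h (Submodule.smul_mem_smul hr Submodule.mem_top), rfl⟩
  have h1 : (1 : R) ∈ I'.colon ({r} : Set R) := hD ▸ Submodule.mem_top
  rw [Submodule.mem_colon_singleton, one_smul] at h1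
  exact h1

theorem eq_of_smul_top_eq {I I' : Ideal R}
    (h : I • (⊤ : Submodule R P) = I' • (⊤ : Submodule R P)) : I = I' :=
  le_antisymm (le_of_smul_top_le h.le) (le_of_smul_top_le h.ge)

variable (I : Ideal R)

/-- `R ⧸ I` is a direct summand of finitely many copies of `P ⧸ I • P`. -/
theorem exists_retraction_quotient :
    ∃ (n : ℕ) (a : (R ⧸ I) →ₗ[R] (Fin n → P ⧸ I • (⊤ : Submodule R P)))
      (b : (Fin n → P ⧸ I • (⊤ : Submodule R P)) →ₗ[R] (R ⧸ I)), b.comp a = LinearMap.id := by
  classical
  obtain ⟨t, ht⟩ := (Module.Invertible.bijective (R := R) (M := P)).2 1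
  obtain ⟨S, rfl⟩ := TensorProduct.exists_finset t
  rw [map_sum] at ht
  simp only [contractLeft_apply] at ht
  refine ⟨S.card, Submodule.liftQ I (LinearMap.pi fun i =>
      LinearMap.toSpanSingleton R _ (Submodule.Quotient.mk (S.equivFin.symm i).1.2)) ?_,
    ∑ i, (Submodule.mapQ _ I (S.equivFin.symm i).1.1 ?_).comp (LinearMap.proj i), ?_⟩
  · intro r hr
    rw [LinearMap.mem_ker]
    ext i
    simp only [LinearMap.pi_apply, LinearMap.toSpanSingleton_apply, Pi.zero_apply,
      ← Submodule.Quotient.mk_smul, Submodule.Quotient.mk_eq_zero]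
    exact Submodule.smul_mem_smul hr Submodule.mem_top
  · rw [Submodule.smul_le]
    intro r hr m _
    rw [Submodule.mem_comap, map_smul, smul_eq_mul]
    exact I.mul_mem_right _ hr
  · refine Submodule.linearMap_qext _ (LinearMap.ext_ring ?_)
    simp only [LinearMap.coe_comp, Function.comp_apply, Submodule.mkQ_apply,
      Submodule.liftQ_apply, LinearMap.id_apply, LinearMap.coe_sum, Finset.sum_apply,
      LinearMap.proj_apply, LinearMap.pi_apply, LinearMap.toSpanSingleton_apply, one_smul,
      Submodule.mapQ_apply]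
    rw [← Submodule.mkQ_apply]
    conv_lhs => simp only [← Submodule.mkQ_apply, ← map_sum]
    congr 1
    rw [← ht, ← Finset.sum_coe_sort S]
    exact S.equivFin.symm.sum_comp (fun x : S => x.1.1 x.1.2)

end

section Rank

attribute [local instance] Algebra.TensorProduct.rightAlgebra

theorem rankAtStalk_invertible {A R Q : Type*} [CommRing A] [CommRing R] [Algebra A R]
    [AddCommGroup Q] [Module A Q] [Module R Q] [IsScalarTower A R Q] [Module.Invertible R Q]
    [Module.Finite A R] [Module.Flat A R] [Module.Finite A Q] [Module.Flat A Q]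
    (p : PrimeSpectrum A) :
    Module.rankAtStalk (R := A) Q p = Module.rankAtStalk (R := A) R p := by
  rw [Module.rankAtStalk_eq, Module.rankAtStalk_eq]
  let K := p.asIdeal.ResidueField
  have : IsArtinianRing (K ⊗[A] R) := IsArtinianRing.of_finite K _
  let e : (K ⊗[A] R) ⊗[R] Q ≃ₗ[K ⊗[A] R] (K ⊗[A] R) :=
    (Module.Invertible.free_iff_linearEquiv.1 inferInstance).some
  exact ((Algebra.IsPushout.cancelBaseChange A K R (K ⊗[A] R) Q).symm ≪≫ₗ
    e.restrictScalars K).finrank_eq

end Rank

section Quotient

variable {A R : Type*} [CommRing A] [CommRing R] [Algebra A R] {P : Type*} [AddCommGroup P]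
  [Module R P] [Module A P] [IsScalarTower A R P] [Module.Invertible R P] (I : Ideal R)
  [Module.Finite A (P ⧸ I • (⊤ : Submodule R P))]
  [Module.Projective A (P ⧸ I • (⊤ : Submodule R P))]

include P in
omit [Module.Projective A (P ⧸ I • (⊤ : Submodule R P))] in
theorem finite_quotient_of_invertible : Module.Finite A (R ⧸ I) := by
  obtain ⟨N, a, b, h⟩ := exists_retraction_quotient (P := P) I
  exact Module.Finite.of_surjective (b.restrictScalars A)
    fun r => ⟨a r, LinearMap.congr_fun h r⟩

include P in
omit [Module.Finite A (P ⧸ I • (⊤ : Submodule R P))] in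
theorem projective_quotient_of_invertible : Module.Projective A (R ⧸ I) := by
  obtain ⟨N, a, b, h⟩ := exists_retraction_quotient (P := P) I
  have : Module.Projective A (Fin N → P ⧸ I • (⊤ : Submodule R P)) :=
    Module.Projective.of_equiv (DFinsupp.linearEquivFunOnFintype (R := A)
      (M := fun _ : Fin N => P ⧸ I • (⊤ : Submodule R P)))
  exact Module.Projective.of_split (a.restrictScalars A) (b.restrictScalars A)
    (LinearMap.ext fun r => LinearMap.congr_fun h r)

theorem rankAtStalk_quotient_of_invertible (p : PrimeSpectrum A) :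
    Module.rankAtStalk (R := A) (R ⧸ I) p =
      Module.rankAtStalk (R := A) (P ⧸ I • (⊤ : Submodule R P)) p := by
  let e : (R ⧸ I) ⊗[R] P ≃ₗ[A] P ⧸ I • (⊤ : Submodule R P) :=
    (TensorProduct.quotTensorEquivQuotSMul P I).restrictScalars A
  have : Module.Finite A (R ⧸ I) := finite_quotient_of_invertible (P := P) I
  have : Module.Projective A (R ⧸ I) := projective_quotient_of_invertible (P := P) I
  have : Module.Finite A ((R ⧸ I) ⊗[R] P) := Module.Finite.equiv e.symm
  have : Module.Projective A ((R ⧸ I) ⊗[R] P) := Module.Projective.of_equiv e.symm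
  rw [← Module.rankAtStalk_eq_of_equiv e]
  exact (rankAtStalk_invertible p).symm

end Quotient

end FLTAgent.Jac.ChartAux
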