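import Fermat.Agent.Jac.Chart.Coord
import Fermat.Agent.Jac.Chart.Invertible

/-! # S25 chart: a section generating at all poles cuts out a divisor in `U₊` -/

set_option autoImplicit false

universe u

open TensorProduct

namespace FLTAgent.Jac.ChartAux

open LineData

variable {k : Type u} [Field k] {M : Model k} {A : Type u} [CommRing A] [Algebra k A]

theorem ρp_smul (L : LineData M A) (a : M.Ap A) (m : L.Mp) :
    L.ρp (a • m) = M.ipA A a • L.ρp m :=
  L.ρp.map_smulₛₗ a m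

theorem ρm_smul (L : LineData M A) (a : M.Am A) (m : L.Mm) :
    L.ρm (a • m) = M.imA A a • L.ρm m :=
  L.ρm.map_smulₛₗ a m

theorem ρm_smul_base (L : LineData M A) (r : A) (m : L.Mm) : L.ρm (r • m) = r • L.ρm m := by
  rw [← IsScalarTower.algebraMap_smul (M.Am A) r m, ρm_smul, AlgHom.commutes,
    IsScalarTower.algebraMap_smul]

theorem mem_H0_iff (L : LineData M A) {v : L.Mp × L.Mm} :
    v ∈ L.H0 ↔ L.ρp v.1 = L.ρm v.2 := by
  rw [LinearMap.mem_ker]
  exact sub_eq_zero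

variable (L : LineData M A) (s : L.Mp × L.Mm) (hs : L.ρp s.1 = L.ρm s.2)

/-- The map `O → L` given by a section. -/
noncomputable def secHom : Hom (LineData.unit M A) L where
  fp := LinearMap.toSpanSingleton (M.Ap A) L.Mp s.1
  fm := LinearMap.toSpanSingleton (M.Am A) L.Mm s.2
  fn := LinearMap.toSpanSingleton (M.Apm A) L.N (L.ρm s.2)
  comm_p a := by
    show M.ipA A a • L.ρm s.2 = L.ρp (a • s.1)
    rw [ρp_smul, hs]
  comm_m a := by
    show M.imA A a • L.ρm s.2 = L.ρm (a • s.2)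
    rw [ρm_smul]

/-- `s` generates `L` along the poles. -/
def GenAtPoles : Prop :=
  ∀ m : L.Mm, ∃ (a : M.Am A) (m' : L.Mm), m = a • s.2 + yA M A • m'

variable {L s}

theorem GenAtPoles.exists_dual (hg : GenAtPoles L s) :
    ∃ (Φ : Module.Dual (M.Am A) L.Mm) (w : M.Am A), Φ s.2 = 1 - yA M A * w := by
  have h : coeffIdeal (R := M.Am A) s.2 ⊔ Ideal.span {yA M A} = ⊤ :=
    eq_top_of_forall_dual_mem L.Mm _ fun φ m => by
      obtain ⟨a, m', rfl⟩ := hg m
      rw [map_add, map_smul, map_smul, smul_eq_mul, smul_eq_mul]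
      exact Submodule.add_mem_sup (Ideal.mul_mem_left _ a ⟨φ, rfl⟩)
        (Ideal.mul_mem_right _ _ (Ideal.mem_span_singleton_self _))
  obtain ⟨c, hc, d, hd, hcd⟩ := Submodule.mem_sup.1
    (show (1 : M.Am A) ∈ coeffIdeal (R := M.Am A) s.2 ⊔ Ideal.span {yA M A} from
      h ▸ Submodule.mem_top)
  obtain ⟨Φ, rfl⟩ := hc
  obtain ⟨w, rfl⟩ := Ideal.mem_span_singleton'.1 hd
  refine ⟨Φ, w, ?_⟩
  rw [← hcd, mul_comm w, add_sub_cancel_right]
  rfl

theorem GenAtPoles.dvd (hg : GenAtPoles L s) {a : M.Am A} {m : L.Mm}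
    (h : a • s.2 = yA M A • m) : yA M A ∣ a := by
  obtain ⟨Φ, w, hΦ⟩ := hg.exists_dual
  refine ⟨a * w + Φ m, ?_⟩
  have h' := congrArg Φ h
  rw [map_smul, map_smul, smul_eq_mul, smul_eq_mul, hΦ] at h'
  linear_combination h'

theorem GenAtPoles.smul_eq_zero (hg : GenAtPoles L s) {a : M.Am A} (h : a • s.2 = 0) :
    a = 0 := by
  obtain ⟨Φ, w, hΦ⟩ := hg.exists_dual
  have h' := congrArg Φ h
  rw [map_smul, map_zero, smul_eq_mul, hΦ] at h'
  have h1 : a = yA M A * w * a := by linear_combination h'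
  refine eq_zero_of_forall_dvd_pow M fun n => ?_
  induction n with
  | zero => simp
  | succ n ih =>
    rw [h1, pow_succ', mul_assoc]
    exact mul_dvd_mul_left _ (dvd_mul_of_dvd_right ih _)

theorem GenAtPoles.fn_injective (hg : GenAtPoles L s) {r : M.Apm A} (h : r • L.ρm s.2 = 0) :
    r = 0 := by
  obtain ⟨i, a, ha⟩ := exists_imA_eq M A r
  have : L.ρm (a • s.2) = 0 := by rw [ρm_smul, ← ha, mul_smul, h, smul_zero]
  rw [hg.smul_eq_zero (L.ρm_inj (this.trans (map_zero _).symm)), map_zero] at ha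
  exact ((M.xU A)⁻¹.isUnit.pow i).mul_right_eq_zero.1 ha

theorem GenAtPoles.fp_injective (hg : GenAtPoles L s) (hs : L.ρp s.1 = L.ρm s.2) {a : M.Ap A}
    (h : a • s.1 = 0) : a = 0 := by
  have h' : M.ipA A a • L.ρm s.2 = 0 := by rw [← hs, ← ρp_smul, h, map_zero]
  exact ipA_injective M A ((hg.fn_injective h').trans (map_zero _).symm)

theorem ρm_yA_smul (L : LineData M A) (i : ℕ) (m : L.Mm) :
    L.ρm (yA M A ^ i • m) = (↑(M.xU A)⁻¹ : M.Apm A) ^ i • L.ρm m := by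
  rw [ρm_smul, map_pow, imA_yA]

theorem yA_smul_cancel (L : LineData M A) {m m' : L.Mm}
    (h : yA M A • m = yA M A • m') : m = m' := by
  apply L.ρm_inj
  have h' := congrArg L.ρm h
  rw [ρm_smul, ρm_smul, imA_yA] at h'
  exact (M.xU A)⁻¹.isUnit.smul_left_cancel.1 h'

theorem GenAtPoles.mem_of_ρm_eq (hg : GenAtPoles L s) {m : L.Mm} {r : M.Apm A}
    (h : L.ρm m = r • L.ρm s.2) : ∃ a : M.Am A, a • s.2 = m ∧ M.imA A a = r := by
  obtain ⟨i, a, ha⟩ := exists_imA_eq M A r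
  have h' : yA M A ^ i • m = a • s.2 := L.ρm_inj (by
    rw [ρm_yA_smul, h, smul_smul, ha, ρm_smul])
  clear ha
  induction i generalizing a with
  | zero =>
    rw [pow_zero, one_smul] at h'
    refine ⟨a, h'.symm, ?_⟩
    rw [h', ρm_smul] at h
    exact sub_eq_zero.1 (hg.fn_injective (by rw [sub_smul, h, sub_self]))
  | succ i ih =>
    rw [pow_succ', mul_smul] at h'
    obtain ⟨c, rfl⟩ := hg.dvd h'.symm
    rw [mul_smul] at h'
    exact ih c (yA_smul_cancel L h')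

include hs in
theorem GenAtPoles.isSub (hg : GenAtPoles L s) :
    IsSub L (LineData.unit M A) (coeffIdeal (R := M.Ap A) s.1) := by
  refine ⟨secHom L s hs, ?_, ?_, ?_, ?_, fun m => ⟨?_, ?_⟩⟩
  · intro a b h
    exact sub_eq_zero.1 (hg.fp_injective hs (by rw [sub_smul]; exact sub_eq_zero.2 h))
  · intro a b h
    exact sub_eq_zero.1 (hg.smul_eq_zero (by rw [sub_smul]; exact sub_eq_zero.2 h))
  · intro a b h
    exact sub_eq_zero.1 (hg.fn_injective (by rw [sub_smul]; exact sub_eq_zero.2 h))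
  · rw [coeffIdeal_smul_top]
    exact (LinearMap.span_singleton_eq_range (M.Ap A) L.Mp s.1).symm
  · rintro ⟨a, rfl⟩
    exact ⟨M.imA A a, (secHom L s hs).comm_m a⟩
  · rintro ⟨r, hr⟩
    obtain ⟨a, ha, -⟩ := hg.mem_of_ρm_eq hr.symm
    exact ⟨a, ha⟩

theorem GenAtPoles.exists_split (hg : GenAtPoles L s) (n : L.N) :
    ∃ (r : M.Apm A) (m : L.Mm), n = r • L.ρm s.2 + L.ρm m := by
  obtain ⟨i, m, hm⟩ := L.ρm_surj n
  have key : ∀ (i : ℕ) (m : L.Mm),
      ∃ (a : M.Am A) (m' : L.Mm), m = a • s.2 + yA M A ^ i • m' := fun i => by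
    induction i with
    | zero => exact fun m => ⟨0, m, by simp⟩
    | succ i ih =>
      intro m
      obtain ⟨a, m', rfl⟩ := ih m
      obtain ⟨b, m'', rfl⟩ := hg m'
      exact ⟨a + yA M A ^ i * b, m'', by
        rw [smul_add, add_smul, mul_smul, pow_succ, mul_smul, add_assoc]⟩
  obtain ⟨a, m', rfl⟩ := key i m
  refine ⟨(M.xU A : M.Apm A) ^ i * M.imA A a, m',
    ((M.xU A)⁻¹.isUnit.pow i).smul_left_cancel.1 ?_⟩
  rw [hm, map_add, ρm_smul, ρm_yA_smul, smul_add, smul_smul, ← mul_assoc, ← mul_pow,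
    Units.inv_mul, one_pow, one_mul]

include hs in
/-- `L / O ≅ H¹(O)` on the finite chart. -/
theorem GenAtPoles.exists_quotEquiv (hg : GenAtPoles L s) (hL : L.Acyclic)
    (hH : ∀ v ∈ L.H0, ∃ a : A, v = a • s) :
    Nonempty ((L.Mp ⧸ coeffIdeal (R := M.Ap A) s.1 • (⊤ : Submodule (M.Ap A) L.Mp)) ≃ₗ[A]
      (LineData.unit M A).H1) := by
  let rm : L.Mm →ₗ[A] L.N :=
    { toFun := L.ρm
      map_add' := map_add _
      map_smul' := ρm_smul_base L }
  let G : M.Apm A →ₗ[A] L.N :=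
    (LinearMap.toSpanSingleton (M.Apm A) L.N (L.ρm s.2)).restrictScalars A
  let K₀ : Submodule A L.N :=
    LinearMap.range rm ⊔ (LinearMap.range (M.ipA A).toLinearMap).map G
  have hK : ∀ n, n ∈ K₀ ↔ ∃ (m : L.Mm) (a : M.Ap A),
      L.ρm m + M.ipA A a • L.ρm s.2 = n := fun n => by
    constructor
    · intro hn
      obtain ⟨_, ⟨m, rfl⟩, _, ⟨_, ⟨a, rfl⟩, rfl⟩, h⟩ := Submodule.mem_sup.1 hn
      exact ⟨m, a, h⟩
    · rintro ⟨m, a, rfl⟩
      exact Submodule.add_mem_sup ⟨m, rfl⟩ ⟨_, ⟨a, rfl⟩, rfl⟩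
  let rp : L.Mp →ₗ[A] L.N :=
    { toFun := L.ρp
      map_add' := map_add _
      map_smul' := fun r m => by
        rw [← IsScalarTower.algebraMap_smul (M.Ap A) r m, ρp_smul, AlgHom.commutes,
          IsScalarTower.algebraMap_smul]; rfl }
  have hP : Function.Surjective (K₀.mkQ ∘ₗ rp) := fun z => by
    obtain ⟨n, rfl⟩ := K₀.mkQ_surjective z
    obtain ⟨⟨p, m⟩, rfl⟩ := hL n
    refine ⟨p, (Submodule.Quotient.eq K₀).2 ((hK _).2 ⟨m, 0, ?_⟩)⟩
    show L.ρm m + M.ipA A 0 • L.ρm s.2 = L.ρp p - (L.ρp p - L.ρm m)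
    rw [map_zero, zero_smul, add_zero, sub_sub_cancel]
  have hU : Function.Surjective (K₀.mkQ ∘ₗ G) := fun z => by
    obtain ⟨n, rfl⟩ := K₀.mkQ_surjective z
    obtain ⟨r, m, rfl⟩ := hg.exists_split n
    refine ⟨r, (Submodule.Quotient.eq K₀).2 ((hK _).2 ⟨-m, 0, ?_⟩)⟩
    show L.ρm (-m) + M.ipA A 0 • L.ρm s.2 = r • L.ρm s.2 - (r • L.ρm s.2 + L.ρm m)
    rw [map_zero, zero_smul, add_zero, map_neg]
    abel
  have kP : LinearMap.ker (K₀.mkQ ∘ₗ rp) =
      (coeffIdeal (R := M.Ap A) s.1 • (⊤ : Submodule (M.Ap A) L.Mp)).restrictScalars A := by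
    ext p
    rw [LinearMap.mem_ker, LinearMap.comp_apply, Submodule.mkQ_apply,
      Submodule.Quotient.mk_eq_zero, hK, Submodule.restrictScalars_mem, coeffIdeal_smul_top,
      Submodule.mem_span_singleton]
    constructor
    · rintro ⟨m, a, h⟩
      obtain ⟨c, hc⟩ := hH (p - a • s.1, m) ((mem_H0_iff L).2 (by
        show L.ρp (p - a • s.1) = L.ρm m
        rw [map_sub, ρp_smul, hs, sub_eq_iff_eq_add, h]
        rfl))
      refine ⟨a + algebraMap A (M.Ap A) c, ?_⟩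
      have hc1 : p - a • s.1 = c • s.1 := congrArg Prod.fst hc
      rw [add_smul, IsScalarTower.algebraMap_smul, ← hc1, add_sub_cancel]
    · rintro ⟨a, rfl⟩
      refine ⟨0, a, ?_⟩
      show _ = L.ρp (a • s.1)
      rw [map_zero, zero_add, ρp_smul, hs]
  have kU : LinearMap.ker (K₀.mkQ ∘ₗ G) = LinearMap.range (LineData.unit M A).diff := by
    ext r
    rw [LinearMap.mem_ker, LinearMap.comp_apply, Submodule.mkQ_apply,
      Submodule.Quotient.mk_eq_zero, hK]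
    constructor
    · rintro ⟨m, a, h⟩
      obtain ⟨b, -, hb⟩ := hg.mem_of_ρm_eq (r := r - M.ipA A a) (m := m) (by
        rw [sub_smul, eq_sub_iff_add_eq, h]
        rfl)
      refine ⟨(a, -b), ?_⟩
      show M.ipA A a - M.imA A (-b) = r
      rw [map_neg, hb]
      ring
    · rintro ⟨⟨a, b⟩, rfl⟩
      refine ⟨-(b • s.2), a, ?_⟩
      show _ = (M.ipA A a - M.imA A b) • L.ρm s.2
      rw [map_neg, ρm_smul, sub_smul]
      abel
  exact ⟨(Submodule.Quotient.restrictScalarsEquiv A _).symm ≪≫ₗ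
    (Submodule.quotEquivOfEq _ _ kP.symm ≪≫ₗ (K₀.mkQ ∘ₗ rp).quotKerEquivOfSurjective hP) ≪≫ₗ
    ((K₀.mkQ ∘ₗ G).quotKerEquivOfSurjective hU).symm ≪≫ₗ Submodule.quotEquivOfEq _ _ kU⟩

end FLTAgent.Jac.ChartAux
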