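import Fermat.Agent.Jac.Chart.Fibre
import Fermat.Agent.Jac.Chart.Section

/-! # S25 chart: the section of `L(nD - E)` -/

set_option autoImplicit false

universe u

open TensorProduct Polynomial

namespace FLTAgent.Jac.ChartAux

open LineData

variable {k : Type u} [Field k] {M : Model k} {A : Type u} [CommRing A] [Algebra k A]

theorem yA_mem_ker (q : M.Rm →ₐ[k] k) (hq : q M.y = 0) :
    yA M A ∈ RingHom.ker (M.ptM (Model.constPt q A)) := by
  simp [RingHom.mem_ker, yA, Model.ptM, Model.constPt, hq]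

theorem pole_lift {L₁ L₂ : LineData M A} {q : M.Rm →ₐ[k] k} (hq : q M.y = 0)
    (h2 : IsSubm L₁ L₂ (RingHom.ker (M.ptM (Model.constPt q A)))) (hA : L₂.Acyclic) (m : L₁.Mm) :
    ∃ v ∈ L₁.H0, v.2 - m ∈
      RingHom.ker (M.ptM (Model.constPt q A)) • (⊤ : Submodule (M.Am A) L₁.Mm) := by
  obtain ⟨f, -, -, -, hm, hsat⟩ := h2
  have hsurj : ∀ z : L₁.N, z ∈ LinearMap.range f.fn := fun z => by
    obtain ⟨i, m', hm'⟩ := L₁.ρm_surj z
    have hy : yA M A • m' ∈ LinearMap.range f.fm :=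
      hm ▸ Submodule.smul_mem_smul (yA_mem_ker q hq) Submodule.mem_top
    obtain ⟨m2, hm2⟩ := hy
    have h : (↑(M.xU A)⁻¹ : M.Apm A) ^ (i + 1) • z ∈ LinearMap.range f.fn :=
      ⟨L₂.ρm m2, by rw [f.comm_m, hm2, ρm_smul, imA_yA, ← hm', smul_smul, pow_succ']⟩
    have h' := Submodule.smul_mem _ ((M.xU A : M.Apm A) ^ (i + 1)) h
    rwa [smul_smul, ← mul_pow, Units.mul_inv, one_pow, one_smul] at h'
  obtain ⟨n2, hn2⟩ := hsurj (L₁.ρm m)
  obtain ⟨⟨p2, m2⟩, h⟩ := hA n2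
  refine ⟨(f.fp p2, m + f.fm m2), (mem_H0_iff _).2 ?_, ?_⟩
  · show L₁.ρp (f.fp p2) = L₁.ρm (m + f.fm m2)
    rw [map_add, ← hn2, ← f.comm_p, ← f.comm_m, ← h]
    show f.fn (L₂.ρp p2) = f.fn (L₂.ρp p2 - L₂.ρm m2) + f.fn (L₂.ρm m2)
    rw [← map_add, sub_add_cancel]
  · show m + f.fm m2 - m ∈ _
    rw [add_sub_cancel_left, ← hm]
    exact ⟨m2, rfl⟩

theorem acyclic_of_pole {L₁ L₂ : LineData M A} {q : M.Rm →ₐ[k] k}
    (h2 : IsSubm L₁ L₂ (RingHom.ker (M.ptM (Model.constPt q A)))) (hA : L₂.Acyclic) :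
    L₁.Acyclic :=
  (acyclic_swap_iff L₁).1
    (IsSub.acyclic (isDivDeg_ker_ptM q) ((isSubm_iff_swap _ _ _).1 h2)
      ((acyclic_swap_iff L₂).2 hA))

theorem map_smul_base {L : LineData M A} {q : M.Rm →ₐ[k] k}
    (φ : L.Mm →ₛₗ[(M.ptM (Model.constPt q A)).toRingHom] A) (r : A) (m : L.Mm) :
    φ (r • m) = r * φ m := by
  rw [← IsScalarTower.algebraMap_smul (M.Am A) r m, φ.map_smulₛₗ, smul_eq_mul]
  show M.ptM (Model.constPt q A) (algebraMap A (M.Am A) r) * φ m = _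
  rw [AlgHom.commutes]
  rfl

theorem map_mem_smul {L : LineData M A} {q : M.Rm →ₐ[k] k}
    (φ : L.Mm →ₛₗ[(M.ptM (Model.constPt q A)).toRingHom] A) {m : L.Mm}
    (h : m ∈ RingHom.ker (M.ptM (Model.constPt q A)) • (⊤ : Submodule (M.Am A) L.Mm)) :
    φ m = 0 := by
  refine Submodule.smul_induction_on h (fun j hj m _ => ?_) fun u v hu hv => ?_
  · rw [φ.map_smulₛₗ, show (M.ptM (Model.constPt q A)).toRingHom j = 0 from hj, zero_smul]
  · rw [map_add, hu, hv, add_zero]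

theorem exists_gen_section [IsAlgClosed k] {e : M.Rm →ₐ[k] k} (he : e M.y = 0)
    {L : LineData M A} (hA : L.Acyclic)
    (hrank : ∀ p : PrimeSpectrum A, Module.rankAtStalk (R := A) L.H0 p = 1)
    (φ : L.Mm →ₛₗ[(M.ptM (Model.constPt e A)).toRingHom] A) (hφ : Function.Surjective φ)
    (hl : ∀ q : M.Rm →ₐ[k] k, q M.y = 0 → ∀ m : L.Mm, ∃ v ∈ L.H0,
      v.2 - m ∈ RingHom.ker (M.ptM (Model.constPt q A)) • (⊤ : Submodule (M.Am A) L.Mm)) :
    ∃ s ∈ L.H0, φ s.2 = 1 ∧ (∀ v ∈ L.H0, ∃ a : A, v = a • s) ∧ GenAtPoles L s := by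
  let ψ : L.H0 →ₗ[A] A :=
    { toFun := fun v => φ v.1.2
      map_add' := fun v w => map_add φ _ _
      map_smul' := fun r v => by simpa using map_smul_base φ r v.1.2 }
  have := Acyclic.finite_H0 hA
  have := Acyclic.projective_H0 hA
  have hsurj : Function.Surjective ψ := fun a => by
    obtain ⟨m, rfl⟩ := hφ a
    obtain ⟨v, hv, hvm⟩ := hl e he m
    exact ⟨⟨v, hv⟩, sub_eq_zero.1 (by rw [show ψ ⟨v, hv⟩ = φ v.2 from rfl, ← map_sub]
                                      exact map_mem_smul φ hvm)⟩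
  have hbij : Function.Bijective ψ := Module.bijective_of_surjective_of_rankAtStalk_eq hsurj
    fun m _ => by
      have : Nontrivial A := (⟨m, inferInstance⟩ : PrimeSpectrum A).nontrivial
      rw [hrank, Module.rankAtStalk_self, Pi.one_apply]
  obtain ⟨⟨s, hs⟩, hs1⟩ := hsurj 1
  have hH : ∀ v ∈ L.H0, ∃ a : A, v = a • s := fun v hv =>
    ⟨φ v.2, congrArg Subtype.val (hbij.1 (a₁ := ⟨v, hv⟩) (a₂ := φ v.2 • ⟨s, hs⟩)
      (by rw [map_smul, hs1, smul_eq_mul, mul_one]; rfl))⟩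
  refine ⟨s, hs, hs1, hH, fun m => ?_⟩
  classical
  obtain ⟨S, N, hS, hle⟩ := exists_pow_prod_le M
  set T : Submodule (M.Am A) L.Mm := Submodule.span (M.Am A) {s.2}
  have hq : ∀ q ∈ S, T ⊔ RingHom.ker (M.ptM (Model.constPt q A)) •
      (⊤ : Submodule (M.Am A) L.Mm) = ⊤ := fun q hqS => by
    rw [eq_top_iff]
    rintro m -
    obtain ⟨v, hv, hvm⟩ := hl q (hS q hqS) m
    obtain ⟨a, rfl⟩ := hH v hv
    rw [← sub_sub_cancel (a • s).2 m]
    exact sub_mem (Submodule.mem_sup_left (Submodule.smul_of_tower_mem _ a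
      (Submodule.mem_span_singleton_self _))) (Submodule.mem_sup_right hvm)
  have hmul : ∀ I I' : Ideal (M.Am A), T ⊔ I • ⊤ = ⊤ → T ⊔ I' • ⊤ = ⊤ → T ⊔ (I * I') • ⊤ = ⊤ :=
    fun I I' h h' => by
      refine eq_top_iff.2 (h.ge.trans (sup_le le_sup_left ?_))
      have e1 : I • (⊤ : Submodule (M.Am A) L.Mm) = I • (T ⊔ I' • ⊤) := by rw [h']
      rw [e1, Submodule.smul_sup, ← smul_assoc, smul_eq_mul]
      exact sup_le_sup_right Submodule.smul_le_right _
  let ι : M.Rm →+* M.Am A :=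
    (Algebra.TensorProduct.includeRight (R := k) (A := A) (B := M.Rm)).toRingHom
  let P : Ideal (M.Am A) := (S.prod fun q => RingHom.ker q).map ι
  have hP : T ⊔ P • ⊤ = ⊤ := by
    refine Finset.prod_induction _ (fun I : Ideal M.Rm => T ⊔ I.map ι • ⊤ = ⊤) ?_ ?_ ?_
    · intro I I' h h'
      rw [Ideal.map_mul]
      exact hmul _ _ h h'
    · rw [Ideal.one_eq_top, Ideal.map_top, Submodule.top_smul, sup_top_eq]
    · intro q hqS
      have h := hq q hqS
      rw [ker_ptM_constPt] at h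
      exact h
  have hPN : ∀ j : ℕ, T ⊔ (P ^ j) • ⊤ = ⊤ := fun j => by
    induction j with
    | zero => rw [pow_zero, one_smul, sup_top_eq]
    | succ j ih => rw [pow_succ]; exact hmul _ _ ih hP
  have hPy : P ^ N ≤ Ideal.span {yA M A} := by
    rw [← Ideal.map_pow]
    refine (Ideal.map_mono hle).trans ?_
    rw [Ideal.map_span, Set.image_singleton]
    exact le_rfl
  have hm : m ∈ T ⊔ Ideal.span {yA M A} • (⊤ : Submodule (M.Am A) L.Mm) :=
    (sup_le_sup_left (Submodule.smul_mono_left hPy) T) ((hPN N).ge Submodule.mem_top)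
  obtain ⟨t, ht, u, hu, rfl⟩ := Submodule.mem_sup.1 hm
  obtain ⟨a, rfl⟩ := Submodule.mem_span_singleton.1 ht
  rw [Submodule.ideal_span_singleton_smul] at hu
  obtain ⟨m', -, rfl⟩ := Submodule.mem_smul_pointwise_iff_exists _ _ _ |>.1 hu
  exact ⟨a, m', rfl⟩

/-- A section cutting out a divisor in `U₊` is a generator along the pole `e`. -/
theorem isUnit_of_isSub {e : M.Rm →ₐ[k] k} (he : e M.y = 0) {L : LineData M A}
    (φ : L.Mm →ₛₗ[(M.ptM (Model.constPt e A)).toRingHom] A) (hφ : Function.Surjective φ)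
    {I : Ideal (M.Ap A)} [Module.Finite A (M.Ap A ⧸ I)] (f : Hom (LineData.unit M A) L)
    (hp : LinearMap.range f.fp = I • ⊤)
    (hsat : ∀ m : L.Mm, m ∈ LinearMap.range f.fm ↔ L.ρm m ∈ LinearMap.range f.fn) :
    IsUnit (φ (f.fm (1 : M.Am A))) := by
  obtain ⟨P, hmon, hP⟩ := IsIntegral.of_finite A (Ideal.Quotient.mk I (xA M A))
  have hPI : aeval (xA M A) P ∈ I := by
    rw [← Ideal.Quotient.eq_zero_iff_mem, ← Ideal.Quotient.mkₐ_eq_mk A,
      ← Polynomial.aeval_algHom_apply]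
    exact hP
  have hall : ∀ z : L.N, aeval (↑(M.xU A) : M.Apm A) P • z ∈ LinearMap.range f.fn := fun z => by
    obtain ⟨i, p, hzp⟩ := L.ρp_surj z
    have hmem : aeval (xA M A) P • p ∈ LinearMap.range f.fp :=
      hp ▸ Submodule.smul_mem_smul hPI Submodule.mem_top
    obtain ⟨c, hc⟩ := hmem
    have hh : M.ipA A (aeval (xA M A) P) • (M.xU A : M.Apm A) ^ i • z ∈ LinearMap.range f.fn :=
      ⟨(LineData.unit M A).ρp c, by rw [f.comm_p, hc, ρp_smul, ← hzp]⟩
    have h := Submodule.smul_mem _ ((↑(M.xU A)⁻¹ : M.Apm A) ^ i) hh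
    rwa [smul_comm (M.ipA A _), smul_smul, ← mul_pow, Units.inv_mul, one_pow, one_smul,
      ← Polynomial.aeval_algHom_apply, ipA_xA] at h
  let w : M.Am A := aeval (yA M A) P.reverse.divX
  have hrev : M.imA A (1 + yA M A * w) =
      (↑(M.xU A)⁻¹ : M.Apm A) ^ P.natDegree * aeval (↑(M.xU A) : M.Apm A) P := by
    have hw : 1 + yA M A * w = aeval (yA M A) P.reverse := by
      have h1 := congrArg (aeval (yA M A)) (Polynomial.X_mul_divX_add P.reverse)
      rw [map_add, map_mul, aeval_X, aeval_C, Polynomial.coeff_zero_reverse, hmon.leadingCoeff,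
        map_one] at h1
      rw [← h1, add_comm]
    let : Invertible (↑(M.xU A) : M.Apm A) := (M.xU A).invertible
    have h := Polynomial.eval₂_reverse_mul_pow (algebraMap A (M.Apm A)) (↑(M.xU A) : M.Apm A) P
    rw [invOf_units] at h
    rw [hw, ← Polynomial.aeval_algHom_apply, imA_yA, Polynomial.aeval_def, Polynomial.aeval_def,
      ← h, mul_comm, mul_assoc, ← mul_pow, Units.mul_inv, one_pow, mul_one]
  obtain ⟨m, hm⟩ := hφ 1
  have hmem : (1 + yA M A * w) • m ∈ LinearMap.range f.fm := by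
    rw [hsat, ρm_smul, hrev, mul_smul]
    exact Submodule.smul_mem _ _ (hall _)
  obtain ⟨a, ha⟩ := hmem
  have ha' : a • f.fm (1 : M.Am A) = (1 + yA M A * w) • m := by
    rw [← map_smul, smul_eq_mul, mul_one]
    exact ha
  have h := congrArg φ ha'
  rw [φ.map_smulₛₗ, φ.map_smulₛₗ, hm, smul_eq_mul, smul_eq_mul, mul_one, RingHom.map_add,
    RingHom.map_one, RingHom.map_mul,
    show (M.ptM (Model.constPt e A)).toRingHom (yA M A) = 0 from yA_mem_ker e he,
    zero_mul, add_zero, mul_comm] at h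
  exact IsUnit.of_mul_eq_one _ h

end FLTAgent.Jac.ChartAux
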