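import Fermat.Agent.Jac.Chart.Swap

/-! # S25 chart: bundles `L(nD - E)` and their Euler characteristic -/

set_option autoImplicit false

universe u

open TensorProduct

namespace FLTAgent.Jac.ChartAux

open LineData

variable {k : Type u} [Field k] {M : Model k} {A : Type u} [CommRing A] [Algebra k A]
  {B : Type u} [CommRing B] [Algebra k B] {n : ℕ} {J : Ideal M.Rp} [Module.Finite k (M.Rp ⧸ J)]

theorem isSub_bc_constIdeal {f : A →ₐ[k] B} {L L₁ : LineData M A} {L' L₁' : LineData M B}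
    (h : IsSub (L.twist n) L₁ (M.constIdeal A J)) (b : IsBC f L L') (b₁ : IsBC f L₁ L₁') :
    IsSub (L'.twist n) L₁' (M.constIdeal B J) := by
  rw [← constIdeal_map f J]
  exact IsSub.bc isDivDeg_constIdeal h (IsBC.twist b n) b₁

theorem chi_fibre (le : M.genus ≤ n * M.d)
    (rank : Module.finrank k (M.Rp ⧸ J) = n * M.d - M.genus) {L L₁ : LineData M A}
    (hL : L.FibreDeg 0) (h1 : IsSub (L.twist n) L₁ (M.constIdeal A J))
    {K : Type u} [Field K] [Algebra k K] [IsAlgClosed K] (f : A →ₐ[k] K) {L₁' : LineData M K}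
    (b : IsBC f L₁ L₁') : L₁'.chi = 1 := by
  obtain ⟨L', bL⟩ := exists_bc f L
  have h := IsSub.chi isDivDeg_constIdeal (isSub_bc_constIdeal h1 bL b)
  have h0 := hL K f L' bL
  rw [chi_unit k] at h0
  rw [h, chi_twist, h0, rank, Nat.cast_sub le, Nat.cast_mul]
  ring

theorem fibreDeg_zero (le : M.genus ≤ n * M.d)
    (rank : Module.finrank k (M.Rp ⧸ J) = n * M.d - M.genus) {L L₁ : LineData M A}
    {I : Ideal (M.Ap A)} (hI : IsDivDeg I M.genus)
    (h1 : IsSub (L.twist n) L₁ (M.constIdeal A J)) (h2 : IsSub L₁ (LineData.unit M A) I) :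
    L.FibreDeg 0 := by
  intro K _ _ _ f L' bL
  obtain ⟨L₁', b⟩ := exists_bc f L₁
  have h := IsSub.chi isDivDeg_constIdeal (isSub_bc_constIdeal h1 bL b)
  have h' := IsSub.chi (hI.map f) (IsSub.bc hI h2 b (isBC_unit f))
  rw [chi_unit K] at h'
  rw [chi_twist, rank, Nat.cast_sub le, Nat.cast_mul] at h
  rw [chi_unit k]
  linarith

/-- The chart condition can be checked on any choice of the auxiliary bundles. -/
theorem pole_acyclic_iff {L L₁ L₂ : LineData M A} (h1 : IsSub (L.twist n) L₁ (M.constIdeal A J))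
    {q : M.Rm →ₐ[k] k} (h2 : IsSubm L₁ L₂ (RingHom.ker (M.ptM (Model.constPt q A))))
    {f : A →ₐ[k] B} {L' L₁' L₂' : LineData M B} (b : IsBC f L L')
    (h1' : IsSub (L'.twist n) L₁' (M.constIdeal B J))
    (h2' : IsSubm L₁' L₂' (RingHom.ker (M.ptM (Model.constPt q B))))
    {N₂ : LineData M B} (b₂ : IsBC f L₂ N₂) :
    L₂'.Acyclic ↔ N₂.Acyclic := by
  obtain ⟨N₁, b₁⟩ := exists_bc f L₁
  exact isSubm_acyclic_iff (IsSub.unique h1' (isSub_bc_constIdeal h1 b b₁)) h2'
    (isSubm_bc h2 b₁ b₂)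

end FLTAgent.Jac.ChartAux
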