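import Fermat.Agent.Jac.Ops
import Fermat.Agent.Jac.Coh
import Fermat.Agent.Jac.Deg

/-! # S25 chart: exchanging the charts, poles, fibres -/

set_option autoImplicit false

universe u

open TensorProduct

namespace FLTAgent.Jac.ChartAux

open LineData

variable {k : Type u} [Field k] {M : Model k} {A : Type u} [CommRing A] [Algebra k A]
  {B : Type u} [CommRing B] [Algebra k B]

theorem acyclic_swap_iff (L : LineData M A) : L.swap.Acyclic ↔ L.Acyclic := by
  constructor <;> intro h n <;> obtain ⟨v, hv⟩ := h (-n)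
  · refine ⟨(v.2, v.1), ?_⟩
    change L.ρm v.1 - L.ρp v.2 = -n at hv
    change L.ρp v.2 - L.ρm v.1 = n
    rw [← neg_sub, hv, neg_neg]
  · refine ⟨(v.2, v.1), ?_⟩
    change L.ρp v.1 - L.ρm v.2 = -n at hv
    change L.ρm v.2 - L.ρp v.1 = n
    rw [← neg_sub, hv, neg_neg]

theorem acyclic_congr {L L' : LineData M A} (h : L.Acyclic) (e : Equivalent L L') :
    L'.Acyclic :=
  Acyclic.bc h (IsBC.congr (IsBC.refl L) (Equivalent.refl L) e)

theorem equivalent_swap {L L' : LineData M A} (h : Equivalent L L') :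
    Equivalent L.swap L'.swap := by
  obtain ⟨f, hp, hm, hn⟩ := h
  exact ⟨⟨f.fm, f.fp, f.fn, f.comm_m, f.comm_p⟩, hm, hp, hn⟩

theorem equivalent_twist_twist (L : LineData M A) {i j : ℤ} (h : i + j = 0) :
    Equivalent L ((L.twist i).twist j) := by
  refine ⟨⟨LinearMap.id, LinearMap.id, LinearMap.id, fun m => rfl, fun m => ?_⟩,
    Function.bijective_id, Function.bijective_id, Function.bijective_id⟩
  change L.ρm m = (↑(M.xU A ^ j) : M.Apm A) • (↑(M.xU A ^ i) : M.Apm A) • L.ρm m
  rw [smul_smul, ← Units.val_mul, ← zpow_add, add_comm, h, zpow_zero, Units.val_one, one_smul]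

theorem ker_ptP_constPt (M : Model k) (q : M.Rp →ₐ[k] k) :
    RingHom.ker (M.ptP (Model.constPt q A)) = M.constIdeal A (RingHom.ker q) := by
  apply le_antisymm
  · intro z hz
    have key : ∀ w : M.Ap A, w - algebraMap A (M.Ap A) (M.ptP (Model.constPt q A) w) ∈
        M.constIdeal A (RingHom.ker q) := fun w => by
      induction w using TensorProduct.induction_on with
      | zero => simp
      | tmul a r =>
        have h1 : M.ptP (Model.constPt q A) (a ⊗ₜ r) = a * algebraMap k A (q r) := by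
          simp [Model.ptP, Model.constPt]
        have h2 : r - algebraMap k M.Rp (q r) ∈ RingHom.ker q := by simp [RingHom.mem_ker]
        have h3 : a ⊗ₜ[k] r - algebraMap A (M.Ap A) (a * algebraMap k A (q r)) =
            a ⊗ₜ[k] (1 : M.Rp) * (1 ⊗ₜ (r - algebraMap k M.Rp (q r))) := by
          rw [Algebra.TensorProduct.algebraMap_apply, Algebra.TensorProduct.tmul_mul_tmul,
            mul_one, one_mul, tmul_sub, Algebra.algebraMap_self, RingHom.id_apply,
            Algebra.algebraMap_eq_smul_one (A := M.Rp), tmul_smul, smul_tmul',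
            Algebra.smul_def, mul_comm]
        rw [h1, h3]
        exact Ideal.mul_mem_left _ _ (Ideal.mem_map_of_mem _ h2)
      | add x y hx hy =>
        have h4 := add_mem hx hy
        rw [map_add, map_add, add_sub_add_comm]
        exact h4
    have h5 := key z
    rw [RingHom.mem_ker] at hz
    rw [hz, map_zero, sub_zero] at h5
    exact h5
  · rw [Model.constIdeal, Ideal.map_le_iff_le_comap]
    intro r hr
    rw [RingHom.mem_ker] at hr
    simp [RingHom.mem_ker, Model.ptP, Model.constPt, hr]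

theorem ker_ptM_constPt (q : M.Rm →ₐ[k] k) :
    RingHom.ker (M.ptM (Model.constPt q A)) = M.swap.constIdeal A (RingHom.ker q) :=
  ker_ptP_constPt M.swap q

theorem isDivDeg_ker_ptM (q : M.Rm →ₐ[k] k) :
    IsDivDeg (M := M.swap) (RingHom.ker (M.ptM (Model.constPt q A))) 1 :=
  isDivDeg_ker_ptP (M := M.swap) (Model.constPt q A)

theorem map_ker_ptM (f : A →ₐ[k] B) (q : M.Rm →ₐ[k] k) :
    (RingHom.ker (M.ptM (Model.constPt q A))).map (M.swap.mapP f) =
      RingHom.ker (M.ptM (Model.constPt q B)) :=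
  (congrArg (Ideal.map (M.swap.mapP f)) (ker_ptM_constPt q)).trans
    ((constIdeal_map (M := M.swap) f (RingHom.ker q)).trans (ker_ptM_constPt q).symm)

theorem exists_isSubm_pole (L : LineData M A) (q : M.Rm →ₐ[k] k) :
    ∃ L' : LineData M A, IsSubm L L' (RingHom.ker (M.ptM (Model.constPt q A))) := by
  obtain ⟨L', h⟩ := exists_isSub L.swap (isDivDeg_ker_ptM (A := A) q)
  exact ⟨L'.swap, (isSubm_iff_swap L L'.swap _).2 h⟩

/-- The pole subbundle of an equivalent or base changed bundle. -/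
theorem isSubm_bc {f : A →ₐ[k] B} {L L' : LineData M A} {N N' : LineData M B}
    {q : M.Rm →ₐ[k] k} (h : IsSubm L L' (RingHom.ker (M.ptM (Model.constPt q A))))
    (b : IsBC f L N) (b' : IsBC f L' N') :
    IsSubm N N' (RingHom.ker (M.ptM (Model.constPt q B))) := by
  rw [isSubm_iff_swap, ← map_ker_ptM f q]
  exact IsSub.bc (isDivDeg_ker_ptM q) ((isSubm_iff_swap _ _ _).1 h) (IsBC.swap b) (IsBC.swap b')

theorem isSubm_acyclic_iff {L L₁ L₁' L₂ : LineData M A} {q : M.Rm →ₐ[k] k}
    (e : Equivalent L₁ L) (h : IsSubm L₁ L₁' (RingHom.ker (M.ptM (Model.constPt q A))))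
    (h₂ : IsSubm L L₂ (RingHom.ker (M.ptM (Model.constPt q A)))) :
    L₁'.Acyclic ↔ L₂.Acyclic := by
  have h' := IsSub.congr ((isSubm_iff_swap _ _ _).1 h) (equivalent_swap e)
    (Equivalent.refl L₁'.swap)
  have e' : Equivalent L₁'.swap L₂.swap := IsSub.unique h' ((isSubm_iff_swap _ _ _).1 h₂)
  rw [← acyclic_swap_iff L₁', ← acyclic_swap_iff L₂]
  exact ⟨fun a => acyclic_congr a e', fun a => acyclic_congr a (Equivalent.symm e')⟩

theorem finite_poles_aux (M : Model k) : {q : M.Rm →ₐ[k] k | q M.y = 0}.Finite := by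
  classical
  obtain ⟨b, hb⟩ := M.basis_m
  set I : Ideal M.Rm := Ideal.span {M.y}
  have hfin : Module.Finite k (M.Rm ⧸ I) := by
    refine Module.Finite.of_surjective
      (Fintype.linearCombination k fun i => Ideal.Quotient.mk I (b i)) fun z => ?_
    obtain ⟨r, rfl⟩ := Ideal.Quotient.mk_surjective z
    obtain ⟨c, rfl⟩ := hb.2 r
    refine ⟨fun i => (c i).coeff 0, ?_⟩
    rw [Fintype.linearCombination_apply, map_sum]
    refine Finset.sum_congr rfl fun i _ => ?_
    have hy : Ideal.Quotient.mkₐ k I M.y = 0 :=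
      Ideal.Quotient.eq_zero_iff_mem.2 (Ideal.mem_span_singleton_self _)
    rw [map_mul, ← Ideal.Quotient.mkₐ_eq_mk k I, ← Polynomial.aeval_algHom_apply, hy,
      ← Polynomial.coeff_zero_eq_aeval_zero', Algebra.smul_def]
  refine ((Set.finite_range fun g : M.Rm ⧸ I →ₐ[k] k => g.comp (Ideal.Quotient.mkₐ k I))).subset
    fun q hq => ⟨Ideal.Quotient.liftₐ I q fun a ha => ?_, AlgHom.ext fun r => rfl⟩
  obtain ⟨c, rfl⟩ := Ideal.mem_span_singleton.1 ha
  rw [map_mul, hq, zero_mul]

end FLTAgent.Jac.ChartAux
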